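import Fermat.Prelude.Def_ModularCurve_X0ModL
import Fermat.Prelude.Def_ModularCurve_LaurentCoeff

/-!
# S19 / KM route, block [G]: base coordinates (definitions)
Owner: helper19.
-/

set_option autoImplicit false

noncomputable section

namespace Fermat.Agent.S19.KM.Mod

open ModularCurve

/-- the series `x` with coefficients in `R` -/
abbrev ser (R : Type*) [CommRing R] (xZ : LaurentSeries ℤ) : LaurentSeries R :=
  coeffMap (Int.castRingHom R) xZ

/-- `xZ ∈ ℤ((q))` is a base coordinate at level `N`: it is a modular function of level `N`,
non-constant over every field, and `j` is a rational function of it over every field. -/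
structure IsBaseCoord (N : ℕ) (xZ : LaurentSeries ℤ) : Prop where
  mem : ser ℚ xZ ∈ modularFunctionFieldFull N
  tr : ∀ (k : Type) [Field k], Transcendental k (ser k xZ)
  j_mem : ∀ (k : Type) [Field k], jqModC k ∈ IntermediateField.adjoin k {ser k xZ}

end Fermat.Agent.S19.KM.Mod
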