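import Fermat.Agent.S19.KM.Geom.Mod.Levels
import Fermat.Agent.S19.KM.Geom.Mod.BaseDefs
import Fermat.Agent.GAL.KLInputs.Base
import Fermat.Agent.S28.Export.Main
import Fermat.Agent.S18.Gauss.Field

/-!
# S19 / KM route, block [G], section M1: goodness, base coordinates (helper199)
-/

set_option autoImplicit false
set_option linter.unusedSectionVars false

noncomputable section

namespace Fermat.Agent.S19.KM.Mod

open ModularCurve AlgebraicCurve Fermat.Agent.S28.Export Fermat.Agent.S18.Descent
  IntermediateField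

local notation "kk" A => IsLocalRing.ResidueField (↥A)

variable (N : ℕ) [NeZero N] {ℓ : ℕ} [Fact ℓ.Prime]

section M1

theorem isGood_baseChange {K : Type*} [Field K] [Algebra ℚ K] (O : ValuationSubring K)
    (hN : ¬ ℓ ∣ N) (hO : O.LiesOverPrime ℓ) :
    IsGood O (laurentBaseChange K (modularFunctionFieldFull N)) := by
  have : CharZero K := algebraRat.charZero K
  obtain ⟨D, -⟩ := exists_UData_card N ℓ hN
  have h := isGood_full O D hO
  rwa [← Fermat.Agent.S18.Gauss.FK_eq_full K N] at h

variable {N} in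
theorem ser_mem {xZ : LaurentSeries ℤ} (hx : IsBaseCoord N xZ) (K : Type*) [Field K] [Algebra ℚ K] :
    ser K xZ ∈ laurentBaseChange K (modularFunctionFieldFull N) := by
  have h := coeffEmb_mem_laurentBaseChange K hx.mem
  rw [coeffEmb, coeffMap_coeffMap] at h
  rwa [coeffMap_congr (RingHom.ext_int _ (Int.castRingHom K))] at h

theorem red_ser {K : Type*} [Field K] (O : ValuationSubring K) (xZ : LaurentSeries ℤ) :
    Red O (ser K xZ) (ser (kk O) xZ) := by
  have h := red_iota (O := O) (ser O xZ)
  rw [iota, rho, coeffMap_coeffMap, coeffMap_coeffMap,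
    coeffMap_congr (RingHom.ext_int _ (Int.castRingHom K)),
    coeffMap_congr (RingHom.ext_int _ (Int.castRingHom (kk O)))] at h
  exact h

theorem isBaseCoord_j : IsBaseCoord N (jqModC ℤ) where
  mem := by
    rw [ser, coeffMap_jqModC]
    have h := jqd_mem_full N (one_dvd N)
    rw [qExpand_one_apply] at h
    exact h
  tr k _ := by
    rw [ser, coeffMap_jqModC]
    exact Fermat.Agent.GAL.KLInputs.transcendental_jqModC k
  j_mem k _ := by
    rw [ser, coeffMap_jqModC]
    exact mem_adjoin_simple_self k _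

open Fermat.Agent.Lib.Hauptmodul Fermat.Agent.GAL.KLInputs

/-- the identity `j h₂ = (1 + 256 h₂)³` over `ℤ` -/
private theorem jZ_mul_h2 : jqModC ℤ * toL ℤ h2Z = (1 + 256 * toL ℤ h2Z) ^ 3 := by
  apply coeffMap_injective (Int.castRingHom ℚ) Int.cast_injective
  rw [map_mul, map_pow, map_add, map_one, map_mul, map_ofNat, coeffMap_jqModC, coeffMap_toL]
  exact jqModC_mul_h2 ℚ

/-- the identity `j h₃ = (1 + 27 h₃)(1 + 243 h₃)³` over `ℤ` -/
private theorem jZ_mul_h3 :
    jqModC ℤ * toL ℤ h3Z = (1 + 27 * toL ℤ h3Z) * (1 + 243 * toL ℤ h3Z) ^ 3 := by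
  apply coeffMap_injective (Int.castRingHom ℚ) Int.cast_injective
  rw [map_mul, map_mul, map_pow, map_add, map_add, map_one, map_mul, map_mul, map_ofNat,
    map_ofNat, coeffMap_jqModC, coeffMap_toL]
  exact jqModC_mul_h3 ℚ

private theorem jk_mul_h2 (k : Type*) [Field k] :
    jqModC k * toL k h2Z = (1 + 256 * toL k h2Z) ^ 3 := by
  have h := congrArg (coeffMap (Int.castRingHom k)) jZ_mul_h2
  rw [map_mul, map_pow, map_add, map_one, map_mul, map_ofNat, coeffMap_jqModC, coeffMap_toL] at h
  exact h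

private theorem jk_mul_h3 (k : Type*) [Field k] :
    jqModC k * toL k h3Z = (1 + 27 * toL k h3Z) * (1 + 243 * toL k h3Z) ^ 3 := by
  have h := congrArg (coeffMap (Int.castRingHom k)) jZ_mul_h3
  rw [map_mul, map_mul, map_pow, map_add, map_add, map_one, map_mul, map_mul, map_ofNat,
    map_ofNat, coeffMap_jqModC, coeffMap_toL] at h
  exact h

theorem isBaseCoord_h2 (hN : 2 ∣ N) :
    IsBaseCoord N (Fermat.Agent.Lib.Hauptmodul.toL ℤ Fermat.Agent.Lib.Hauptmodul.h2Z) where
  mem := by
    rw [ser, coeffMap_toL]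
    exact full_degeneracy_le hN h2q_mem
  tr k _ := by
    rw [ser, coeffMap_toL]
    exact transcendental_toL_X_mul k u2Z constantCoeff_u2Z
  j_mem k _ := by
    rw [ser, coeffMap_toL]
    set x : LaurentSeries k := toL k h2Z with hx
    have hx0 : x ≠ 0 := by
      intro h
      have := transcendental_toL_X_mul k u2Z constantCoeff_u2Z
      rw [show toL k (PowerSeries.X * u2Z) = x from rfl, h] at this
      exact this isAlgebraic_zero
    have h1 : jqModC k = (1 + 256 * x) ^ 3 / x := by
      rw [eq_div_iff hx0]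
      exact jk_mul_h2 k
    rw [h1]
    have hxm : x ∈ k⟮x⟯ := mem_adjoin_simple_self k x
    exact div_mem (pow_mem (add_mem (one_mem _) (mul_mem (ofNat_mem _ 256) hxm)) 3) hxm

theorem isBaseCoord_h3 (hN : 3 ∣ N) :
    IsBaseCoord N (Fermat.Agent.Lib.Hauptmodul.toL ℤ Fermat.Agent.Lib.Hauptmodul.h3Z) where
  mem := by
    rw [ser, coeffMap_toL]
    exact full_degeneracy_le hN h3q_mem
  tr k _ := by
    rw [ser, coeffMap_toL]
    exact transcendental_toL_X_mul k u3Z constantCoeff_u3Z
  j_mem k _ := by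
    rw [ser, coeffMap_toL]
    set x : LaurentSeries k := toL k h3Z with hx
    have hx0 : x ≠ 0 := by
      intro h
      have := transcendental_toL_X_mul k u3Z constantCoeff_u3Z
      rw [show toL k (PowerSeries.X * u3Z) = x from rfl, h] at this
      exact this isAlgebraic_zero
    have h1 : jqModC k = (1 + 27 * x) * (1 + 243 * x) ^ 3 / x := by
      rw [eq_div_iff hx0]
      exact jk_mul_h3 k
    rw [h1]
    have hxm : x ∈ k⟮x⟯ := mem_adjoin_simple_self k x
    exact div_mem (mul_mem (add_mem (one_mem _) (mul_mem (ofNat_mem _ 27) hxm))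
      (pow_mem (add_mem (one_mem _) (mul_mem (ofNat_mem _ 243) hxm)) 3)) hxm

end M1

end Fermat.Agent.S19.KM.Mod
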