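import Fermat.Agent.S19.KM.Geom.Mod.Levels
import Fermat.Agent.S19.KM.Geom.DescentBasic
import Fermat.Agent.S28.Export.Main
import Fermat.Agent.Lib.InertiaField.Residue

/-!
# S19 / KM route, block [G], section M4: the hypotheses of the descent lemmas

* `isCompositum_bar`, `isLinDisj_bar` : `F_{ℚ̄} = ℚ̄ · F_{K₀}`, linearly disjoint over `K₀`;
* `resMap_algebraMap`, `isLinDisj_res`, `isCompositum_res` : the same for the residue fields;
* `red_compat` : compatibility of the reductions at the two levels.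
-/

set_option autoImplicit false

noncomputable section

namespace Fermat.Agent.S19.KM.Mod

open ModularCurve Fermat.Agent.S28.Export Fermat.Agent.S18.Descent IntermediateField

local notation "Qb" => AlgebraicClosure ℚ
local notation "kk" A => IsLocalRing.ResidueField (↥A)

/-! ### general lemmas -/

/-- linear disjointness of the constants and of the series over the small field, coefficientwise -/
theorem Compositum.eq_zero_of_sum_smul_coeffMap {K₀ K : Type*} [Field K₀] [Field K] [Algebra K₀ K]
    {m : ℕ} (c : Fin m → K) (g : Fin m → LaurentSeries K₀) (hc : LinearIndependent K₀ c)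
    (h : ∑ j, algebraMap K (LaurentSeries K) (c j) * coeffMap (algebraMap K₀ K) (g j) = 0) :
    ∀ j, g j = 0 := by
  have key : ∀ n : ℤ, ∀ j, (g j).coeff n = 0 := by
    intro n
    have h1 := congrArg (fun z : LaurentSeries K => z.coeff n) h
    simp only [HahnSeries.coeff_sum, algebraMap_laurentSeries_eq_single,
      HahnSeries.coeff_single_mul, sub_zero, coeffMap_coeff, HahnSeries.coeff_zero] at h1
    refine Fintype.linearIndependent_iff.1 hc (fun j => (g j).coeff n) ?_
    rw [← h1]
    refine Finset.sum_congr rfl fun j _ => ?_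
    rw [Algebra.smul_def, mul_comm]
  intro j
  ext n
  rw [key n j, HahnSeries.coeff_zero]

/-- an intermediate field `E` of `Ω / K` is generated over `K` by the range of `Φ : F₀ → E` as soon as
`E` is contained in the subfield of `Ω` generated by a set of values of `Φ`. -/
theorem Compositum.adjoin_range_eq_top {K Ω F₀ : Type*} [Field K] [Field Ω] [Algebra K Ω]
    (E : IntermediateField K Ω) (Φ : F₀ → E) (S : Set Ω) (hE : E ≤ IntermediateField.adjoin K S)
    (hS : ∀ s ∈ S, ∃ y, ((Φ y : E) : Ω) = s) :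
    IntermediateField.adjoin K (Set.range Φ) = ⊤ := by
  rw [eq_top_iff]
  intro x _
  have h1 : (x : Ω) ∈ (IntermediateField.adjoin K (Set.range Φ)).map E.val := by
    rw [IntermediateField.adjoin_map]
    refine (IntermediateField.adjoin.mono K S _ ?_) (hE x.2)
    intro s hs
    obtain ⟨y, rfl⟩ := hS s hs
    exact ⟨Φ y, ⟨y, rfl⟩, rfl⟩
  obtain ⟨y, hy, hyx⟩ := h1
  have : y = x := Subtype.ext hyx
  exact this ▸ hy

variable (N : ℕ) [NeZero N] {ℓ : ℕ} [Fact ℓ.Prime] (A : ValuationSubring Qb)

variable (K₀ : IntermediateField ℚ Qb) (F₀ : IntermediateField ℚ (LaurentSeries ℚ))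

theorem isCompositum_bar : IsCompositum Qb (baseChangeMap F₀ (algebraMap K₀ Qb)) := by
  have : Algebra.IsAlgebraic ℚ Qb := AlgebraicClosure.isAlgebraic ℚ
  have : Algebra.IsAlgebraic K₀ Qb := Algebra.IsAlgebraic.tower_top (K := ℚ) K₀
  refine isCompositum_of_adjoin (K₀ := K₀) _ (fun a => baseChangeMap_algebraMap _ a) ?_
  refine Compositum.adjoin_range_eq_top (laurentBaseChange Qb F₀) _
    (⇑(coeffEmb Qb) '' (F₀ : Set (LaurentSeries ℚ))) le_rfl ?_
  rintro _ ⟨z, hz, rfl⟩
  exact ⟨⟨coeffEmb K₀ z, coeffEmb_mem_laurentBaseChange K₀ hz⟩, coeffMap_coeffEmb' _ z⟩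

theorem isLinDisj_bar : IsLinDisj K₀ Qb (baseChangeMap F₀ (algebraMap K₀ Qb)) := by
  intro m c g hc h j
  apply Subtype.ext
  refine Compositum.eq_zero_of_sum_smul_coeffMap c (fun j => (g j : LaurentSeries K₀)) hc ?_ j
  have h1 := congrArg (Subtype.val) h
  simp only [AddSubmonoidClass.coe_finsetSum, ZeroMemClass.coe_zero, Algebra.smul_def] at h1
  exact h1

theorem resMap_algebraMap (a : kk (restrict A K₀)) :
    resMap A K₀ F₀ (algebraMap _ _ a) = algebraMap (kk A) _ (algebraMap _ (kk A) a) := by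
  apply Subtype.ext
  rw [coe_resMap]
  show coeffMap (residueMap A K₀) (algebraMap _ (LaurentSeries _) a) =
    algebraMap (kk A) (LaurentSeries (kk A)) (residueMap A K₀ a)
  rw [algebraMap_laurentSeries_eq_single, algebraMap_laurentSeries_eq_single, coeffMap_single]

theorem isLinDisj_res : IsLinDisj (kk (restrict A K₀)) (kk A) (resMap A K₀ F₀) := by
  intro m c g hc h j
  apply Subtype.ext
  refine Compositum.eq_zero_of_sum_smul_coeffMap c
    (fun j => (g j : LaurentSeries (kk (restrict A K₀)))) hc ?_ j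
  have h1 := congrArg (Subtype.val) h
  simp only [AddSubmonoidClass.coe_finsetSum, ZeroMemClass.coe_zero, Algebra.smul_def] at h1
  exact h1

/-- the residue field of `A` is algebraic over the residue field of `A ∩ K₀` -/
private theorem isAlgebraic_residue_aux (hA : A.LiesOverPrime ℓ) :
    Algebra.IsAlgebraic (kk (restrict A K₀)) (kk A) := by
  refine ⟨fun c => ?_⟩
  obtain ⟨a, rfl⟩ := IsLocalRing.residue_surjective c
  by_cases h0 : IsLocalRing.residue A a = 0
  · rw [h0]
    exact isAlgebraic_zero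
  · have ha' : (a : Qb) ∉ A.nonunits := by
      intro hmem
      apply h0
      rw [IsLocalRing.residue_eq_zero_iff]
      obtain ⟨_, h1⟩ := ValuationSubring.mem_nonunits_iff_exists_mem_maximalIdeal.1 hmem
      exact h1
    obtain ⟨n, hn, h1⟩ :=
      Fermat.Agent.Lib.InertiaField.exists_pow_sub_one_mem A ℓ Fact.out hA a.2 ha'
    have hn0 : 0 < n := Nat.pos_of_ne_zero fun h => hn (h ▸ dvd_zero ℓ)
    have h2 : IsLocalRing.residue A a ^ n = 1 := by
      obtain ⟨h3, h4⟩ := ValuationSubring.mem_nonunits_iff_exists_mem_maximalIdeal.1 h1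
      have h5 : (⟨(a : Qb) ^ n - 1, h3⟩ : A) = a ^ n - 1 := rfl
      rw [← IsLocalRing.residue_eq_zero_iff, h5, map_sub, map_pow, map_one, sub_eq_zero] at h4
      exact h4
    have h3 : IsIntegral (kk (restrict A K₀)) (IsLocalRing.residue A a) :=
      IsIntegral.of_pow hn0 (by rw [h2]; exact isIntegral_one)
    exact h3.isAlgebraic

theorem Compositum.restrictHom_comp_zlTo (hA : A.LiesOverPrime ℓ) :
    (restrictHom A K₀).comp (Fermat.Agent.S18.Vert.zlTo (restrict A K₀)
      (restrict_liesOverPrime K₀ hA)) = Fermat.Agent.S18.Vert.zlTo A hA := by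
  ext x
  simp [Fermat.Agent.S18.Vert.zlTo]

theorem Compositum.coeffMap_residueMap_uk (hA : A.LiesOverPrime ℓ) {N : ℕ}
    (D : Fermat.Agent.S28.UData N ℓ) :
    coeffMap (residueMap A K₀) (uk (restrict A K₀) D (restrict_liesOverPrime K₀ hA)) =
      uk A D hA := by
  have h1 : coeffMap (restrictHom A K₀) (uO (restrict A K₀) D (restrict_liesOverPrime K₀ hA)) =
      uO A D hA := by
    rw [uO, uO, Fermat.Agent.S18.Vert.uS, Fermat.Agent.S18.Vert.uS, coeffMap_coeffMap,
      Compositum.restrictHom_comp_zlTo]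
  rw [uk, ← rho_restrictHom, h1, uk]

theorem isCompositum_res (hN : ¬ ℓ ∣ N) (hA : A.LiesOverPrime ℓ) :
    IsCompositum (kk A) (resMap A (⊥ : IntermediateField ℚ Qb) (modularFunctionFieldFull N)) := by
  have := isAlgebraic_residue_aux A (⊥ : IntermediateField ℚ Qb) hA
  obtain ⟨D, -, hu⟩ := exists_good_UData N ℓ hN
  have hA₀ := restrict_liesOverPrime (⊥ : IntermediateField ℚ Qb) hA
  refine isCompositum_of_adjoin (K₀ := kk (restrict A (⊥ : IntermediateField ℚ Qb))) _
    (resMap_algebraMap A ⊥ _) ?_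
  refine Compositum.adjoin_range_eq_top
    (resField A (laurentBaseChange Qb (modularFunctionFieldFull N))) _
    {jqModC (kk A), uk A D hA} ?_ ?_
  · have h1 : laurentBaseChange Qb (modularFunctionFieldFull N) = bigK A D hA := by
      rw [bigK_eq_full A D hA hu]
      exact bar_eq_full N
    rw [h1, resField_bigK]
    exact le_rfl
  · rintro s (rfl | rfl)
    · refine ⟨⟨jqModC _, jqModC _, ?_, red_jqModC _⟩, coeffMap_jqModC _⟩
      have h2 : jqModC (⊥ : IntermediateField ℚ Qb) = coeffEmb (⊥ : IntermediateField ℚ Qb) jq :=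
        (coeffMap_jqModC (R := ℚ) _).symm
      rw [h2]
      exact coeffEmb_mem_laurentBaseChange _ (modularFunctionField_le_full N (jq_mem N))
    · refine ⟨⟨uk _ D hA₀, uK _ D hA₀, ?_, red_uK _ D hA₀⟩,
        Compositum.coeffMap_residueMap_uk A ⊥ hA D⟩
      rw [uK_eq]
      exact coeffEmb_mem_laurentBaseChange _ hu

theorem red_compat (h : IsGood A (laurentBaseChange Qb F₀))
    (h₀ : IsGood (restrict A K₀) (laurentBaseChange K₀ F₀))
    (f : gaussRing (restrict A K₀) (laurentBaseChange K₀ F₀) h₀) :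
    (redData h).Red (baseChangeMap F₀ (algebraMap K₀ Qb) (f : laurentBaseChange K₀ F₀))
      (resMap A K₀ F₀ (redE h₀ f)) := by
  rw [redData_red_iff]
  exact red_coeffMap (red_redHom h₀ f)

end Fermat.Agent.S19.KM.Mod
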