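import Fermat.Agent.S19.KM.Curve.Defs
import Fermat.Agent.S19.KM.Geom.Mod.BaseDefs
import Fermat.Agent.S28.Export.Main
import Fermat.Agent.S24.Export.Ramification
import Fermat.Agent.GAL.KLInputs.Base
import Fermat.Agent.Lib.InertiaField.Residue
import Fermat.Agent.Lib.RR.CharP

/-!
# S19 / KM route, block [G], section M2: the two curves

`ℚ̄(X₀(N))` and its reduction `F_k = resField A (modularFunctionFieldBar N)` are curves in the sense of
`KM/Curve/Defs.lean`; `F_k` is finite separable over `k(x)` for every base coordinate `x`.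
Task 2014 (helper146).
-/

set_option autoImplicit false

noncomputable section

namespace Fermat.Agent.S19.KM.Mod

open ModularCurve AlgebraicCurve Fermat.Agent.S28.Export
  Fermat.Agent.S24.FF Fermat.Agent.Lib.RR Module Submodule IntermediateField Polynomial

local notation "Qb" => AlgebraicClosure ℚ
local notation "kk" A => IsLocalRing.ResidueField (↥A)

section Abstract

/-- transport of separability of an element along a commutative square of fields -/
theorem curve_isSeparable_transport {A₁ B₁ A₂ B₂ : Type*} [Field A₁] [Field B₁] [Field A₂]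
    [Field B₂] [Algebra A₁ B₁] [Algebra A₂ B₂] (φ : A₁ →+* A₂) (ψ : B₂ →+* B₁)
    (h : (ψ.comp (algebraMap A₂ B₂)).comp φ = algebraMap A₁ B₁) {u : B₂}
    (hu : IsSeparable A₁ (ψ u)) : IsSeparable A₂ u := by
  have h0 : aeval u ((minpoly A₁ (ψ u)).map φ) = 0 := by
    apply ψ.injective
    rw [map_zero, aeval_def, eval₂_map, hom_eval₂, ← RingHom.comp_assoc, h, ← aeval_def,
      minpoly.aeval]
  exact (Separable.map hu).of_dvd (minpoly.dvd A₂ u h0)

variable {k Ω : Type*} [Field k] [Field Ω] [Algebra k Ω]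

theorem curve_mem_of_mem_map {F : IntermediateField k Ω} (E : IntermediateField k F) {a : F}
    (ha : (a : Ω) ∈ E.map F.val) : a ∈ E := by
  obtain ⟨y, hy, hya⟩ := ha
  have : y = a := Subtype.ext hya
  rwa [← this]

theorem curve_map_adjoin_simple {F : IntermediateField k Ω} (x : F) :
    (k⟮x⟯).map F.val = k⟮(x : Ω)⟯ := by
  rw [adjoin_map, Set.image_singleton]
  rfl

variable {j u : Ω} {F : IntermediateField k Ω} (hF : F = adjoin k {j, u}) (x : F)
  (hj : j ∈ k⟮(x : Ω)⟯) (hu : IsSeparable k⟮j⟯ u)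

include hF hj hu

theorem curve_abs_aux :
    ∃ uF : F, IsSeparable k⟮x⟯ uF ∧ (k⟮x⟯)⟮uF⟯ = ⊤ := by
  have hjF : j ∈ F := hF ▸ subset_adjoin _ _ (by simp)
  have huF : u ∈ F := hF ▸ subset_adjoin _ _ (by simp)
  let jF : F := ⟨j, hjF⟩
  let uF : F := ⟨u, huF⟩
  have hle : k⟮j⟯ ≤ F := (adjoin_simple_le_iff).2 hjF
  have hle2 : k⟮j⟯ ≤ (k⟮x⟯).map F.val := by
    rw [curve_map_adjoin_simple, adjoin_simple_le_iff]
    exact hj
  let φ : k⟮j⟯ →+* k⟮x⟯ := ((inclusion hle : k⟮j⟯ →ₐ[k] F) : k⟮j⟯ →+* F).codRestrict k⟮x⟯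
    (fun a => curve_mem_of_mem_map _ (hle2 a.2))
  refine ⟨uF, curve_isSeparable_transport φ (algebraMap F Ω) (RingHom.ext fun a => rfl) hu, ?_⟩
  have htop : adjoin k {jF, uF} = ⊤ := by
    apply map_injective F.val
    rw [adjoin_map, ← AlgHom.fieldRange_eq_map, fieldRange_val, Set.image_pair]
    exact hF.symm
  rw [eq_top_iff]
  have h2 : (⊤ : IntermediateField k F) ≤ ((k⟮x⟯)⟮uF⟯).restrictScalars k := by
    rw [← htop, adjoin_le_iff]
    intro y hy
    rw [SetLike.mem_coe, mem_restrictScalars]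
    rcases hy with hy | hy
    · have h3 : jF ∈ k⟮x⟯ := curve_mem_of_mem_map _ (hle2 (mem_adjoin_simple_self k j))
      rw [hy]
      exact (k⟮x⟯)⟮uF⟯.algebraMap_mem ⟨jF, h3⟩
    · rw [Set.mem_singleton_iff.1 hy]
      exact mem_adjoin_simple_self (k⟮x⟯) uF
  intro y _
  exact (mem_restrictScalars k).1 (h2 (mem_top (x := y)))

theorem curve_abs_finiteDimensional : FiniteDimensional k⟮x⟯ F := by
  obtain ⟨uF, h1, h2⟩ := curve_abs_aux hF x hj hu
  have := adjoin.finiteDimensional h1.isIntegral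
  rw [h2] at this
  exact (topEquiv (F := k⟮x⟯) (E := F)).toLinearEquiv.finiteDimensional

theorem curve_abs_isSeparable : Algebra.IsSeparable k⟮x⟯ F := by
  obtain ⟨uF, h1, h2⟩ := curve_abs_aux hF x hj hu
  have := (isSeparable_adjoin_simple_iff_isSeparable _ _).2 h1
  rw [h2] at this
  exact AlgEquiv.Algebra.isSeparable (topEquiv (F := k⟮x⟯) (E := F))

end Abstract

variable (N : ℕ) [NeZero N] {ℓ : ℕ} [Fact ℓ.Prime] (A : ValuationSubring Qb)

theorem isCurve_bar : IsCurve Qb (modularFunctionFieldBar N) :=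
  have := Fermat.Agent.S24.Export.isFF1 N
  { nonconst := ⟨Fermat.Agent.S24.jF N, Fermat.Agent.S24.Formal.transcendental_jF N⟩ }

/-- `F_k = k(j, u)` -/
theorem curve_resField_eq (hN : ¬ ℓ ∣ N) (hA : A.LiesOverPrime ℓ) :
    ∃ D : Fermat.Agent.S28.UData N ℓ, resField A (modularFunctionFieldBar N) =
      adjoin (kk A) {jqModC (kk A), uk A D hA} := by
  obtain ⟨D, -, hu⟩ := exists_good_UData N ℓ hN
  refine ⟨D, ?_⟩
  rw [bar_eq_full, ← bigK_eq_full A D hA hu, resField_bigK]
  rfl

/-- `F_k / k(x)` is finite -/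
theorem finiteDimensional_res (hN : ¬ ℓ ∣ N) (hA : A.LiesOverPrime ℓ) {xZ : LaurentSeries ℤ}
    (hx : IsBaseCoord N xZ) (xk : resField A (modularFunctionFieldBar N))
    (hxk : (xk : LaurentSeries (kk A)) = ser (kk A) xZ) :
    FiniteDimensional (kk A)⟮xk⟯ (resField A (modularFunctionFieldBar N)) := by
  obtain ⟨D, hD⟩ := curve_resField_eq N A hN hA
  exact curve_abs_finiteDimensional hD xk (by rw [hxk]; exact hx.j_mem (kk A))
    (isSeparable_uk A D hA)

/-- `F_k / k(x)` is separable -/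
theorem isSeparable_res (hN : ¬ ℓ ∣ N) (hA : A.LiesOverPrime ℓ) {xZ : LaurentSeries ℤ}
    (hx : IsBaseCoord N xZ) (xk : resField A (modularFunctionFieldBar N))
    (hxk : (xk : LaurentSeries (kk A)) = ser (kk A) xZ) :
    Algebra.IsSeparable (kk A)⟮xk⟯ (resField A (modularFunctionFieldBar N)) := by
  obtain ⟨D, hD⟩ := curve_resField_eq N A hN hA
  exact curve_abs_isSeparable hD xk (by rw [hxk]; exact hx.j_mem (kk A))
    (isSeparable_uk A D hA)

theorem isCurve_res (hN : ¬ ℓ ∣ N) (hA : A.LiesOverPrime ℓ) :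
    IsCurve (kk A) (resField A (modularFunctionFieldBar N)) := by
  obtain ⟨D, hD⟩ := curve_resField_eq N A hN hA
  have hj : jqModC (kk A) ∈ resField A (modularFunctionFieldBar N) := by
    rw [hD]
    exact subset_adjoin _ _ (by simp)
  let xk : resField A (modularFunctionFieldBar N) := ⟨jqModC (kk A), hj⟩
  have htr : Transcendental (kk A) xk := fun h =>
    Fermat.Agent.GAL.KLInputs.transcendental_jqModC (kk A)
      (IsAlgebraic.algHom (resField A (modularFunctionFieldBar N)).val h)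
  have := Fermat.Agent.Lib.InertiaField.isAlgClosed_residueField A
  have : FiniteDimensional (kk A)⟮xk⟯ (resField A (modularFunctionFieldBar N)) :=
    curve_abs_finiteDimensional hD xk (mem_adjoin_simple_self _ _) (isSeparable_uk A D hA)
  have : Algebra.IsSeparable (kk A)⟮xk⟯ (resField A (modularFunctionFieldBar N)) :=
    curve_abs_isSeparable hD xk (mem_adjoin_simple_self _ _) (isSeparable_uk A D hA)
  have : IsFF1 (kk A) (resField A (modularFunctionFieldBar N)) := IsFF1.of_exists xk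
  have : HasFundId (kk A) (resField A (modularFunctionFieldBar N)) :=
    hasFundId_of_isSeparable xk htr
  exact { nonconst := ⟨xk, htr⟩ }

end Fermat.Agent.S19.KM.Mod
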