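import Fermat.Agent.S19.KM.Red.Defs
import Fermat.Agent.S28.Export.ResField

/-!
# S19 / KM route, block [G]: reduction data of a Gauss-good subfield of `K((q))` (definitions)

`K` a field, `A` a valuation subring, `E ⊆ K((q))` a subfield containing `K` which is *good*
(`S28.Export.IsGood`: every nonzero element is a constant times a series with nonzero reduction).
Then `(A, gaussRing A E, residue, redHom)` is a `RedData K E k (resField A E)`.
Owner: helper19.
-/

set_option autoImplicit false

noncomputable section

namespace Fermat.Agent.S19.KM.Mod

open Fermat.Agent.S28.Export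

variable {K : Type*} [Field K] {A : ValuationSubring K}
  {E : IntermediateField K (LaurentSeries K)} (h : IsGood A E)

/-- the reduction map `gaussRing A E → resField A E` -/
def redE : gaussRing A E h →+* resField A E :=
  (redHom h).codRestrict (resField A E).toSubring fun f => ⟨_, (f : E).2, red_redHom h f⟩

@[simp] theorem coe_redE (f : gaussRing A E h) :
    ((redE h f : resField A E) : LaurentSeries (IsLocalRing.ResidueField A)) = redHom h f := rfl

theorem redE_surjective : Function.Surjective (redE h) := by
  rintro ⟨g, f, hf, hr⟩
  exact ⟨⟨⟨f, hf⟩, ⟨g, hr⟩⟩, Subtype.ext (redHom_eq h hr)⟩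

theorem redE_eq_zero_iff (f : gaussRing A E h) : redE h f = 0 ↔ ¬ IsUnit f := by
  rw [isUnit_iff_redHom_ne_zero, not_not]
  constructor
  · intro h0
    have := congrArg Subtype.val h0
    simpa using this
  · intro h0
    exact Subtype.ext h0

/-- the reduction data attached to a good field -/
def redData : RedData K E (IsLocalRing.ResidueField A) (resField A E) where
  A := A
  O := gaussRing A E h
  res := IsLocalRing.residue A
  red := redE h
  res_surjective := IsLocalRing.residue_surjective
  res_eq_zero := fun a => by
    rw [IsLocalRing.residue_eq_zero_iff, IsLocalRing.mem_maximalIdeal, mem_nonunits_iff]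
  red_eq_zero := redE_eq_zero_iff h
  algebraMap_mem := algebraMap_mem_gaussRing_iff h
  red_algebraMap := fun a => by
    apply Subtype.ext
    rw [coe_redE]
    apply redHom_eq
    have e : (((algebraMap K E (a : K) : E)) : LaurentSeries K) = HahnSeries.C (a : K) :=
      ModularCurve.algebraMap_laurentSeries_eq_single K (a : K)
    have e' : ((algebraMap (IsLocalRing.ResidueField A) (resField A E) (IsLocalRing.residue A a) :
        resField A E) : LaurentSeries (IsLocalRing.ResidueField A)) =
        HahnSeries.C (IsLocalRing.residue A a) :=
      ModularCurve.algebraMap_laurentSeries_eq_single _ _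
    rw [e']
    show Red A (((algebraMap K E (a : K) : E)) : LaurentSeries K) _
    rw [e]
    exact red_C a

@[simp] theorem redData_A : (redData h).A = A := rfl
@[simp] theorem redData_O : (redData h).O = gaussRing A E h := rfl

theorem redData_red_iff (f : E) (g : resField A E) :
    (redData h).Red f g ↔
      Red A (f : LaurentSeries K) (g : LaurentSeries (IsLocalRing.ResidueField A)) := by
  constructor
  · rintro ⟨hf, rfl⟩
    exact red_redHom h ⟨f, hf⟩
  · intro hr
    exact ⟨⟨_, hr⟩, Subtype.ext (redHom_eq h hr)⟩

end Fermat.Agent.S19.KM.Mod
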