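import Fermat.Agent.S19.KM.Geom.Mod.Frames.Generic
import Fermat.Agent.S19.KM.Geom.Mod.Base
import Fermat.Agent.S19.KM.Geom.Mod.Curve
import Fermat.Agent.S19.KM.Geom.Mod.Compositum
import Fermat.Agent.S19.KM.Geom.Dict
import Fermat.Agent.GAL.KLInputs.Main

/-!
# S19 / KM route, block [G], section M6: the frames over the discrete valuation ring `A₀`

Instantiation of `frames_of_gauss` (hence of `exists_frames_LL`) at `K₀ = ⊥ ⊆ ℚ̄`,
`A₀ = restrict A K₀`, `F = F_{K₀}`, with the base coordinates `x = j` (`ℓ ≥ 5`), `h₂` (`ℓ = 3`),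
`h₃` (`ℓ = 2`).  Task 2221 (helper275).
-/

set_option autoImplicit false
set_option linter.unusedSectionVars false

noncomputable section

namespace Fermat.Agent.S19.KM.Mod

open ModularCurve AlgebraicCurve Fermat.Agent.S28.Export Fermat.Agent.S18.Descent
  Fermat.Agent.S24.FF Fermat.Agent.Lib.RR Module Submodule IntermediateField

local notation "Qb" => AlgebraicClosure ℚ
local notation "GQ" => (AlgebraicClosure ℚ ≃ₐ[ℚ] AlgebraicClosure ℚ)
local notation "kk" A => IsLocalRing.ResidueField (↥A)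

variable (N : ℕ) [NeZero N] {ℓ : ℕ} [Fact ℓ.Prime] (A : ValuationSubring Qb)

section M6

/-- finiteness of `LL K₀ x i`, by base change to `ℚ̄` -/
theorem frames_finite_LL (K₀ : IntermediateField ℚ Qb)
    (x : laurentBaseChange K₀ (modularFunctionFieldFull N))
    (hx : Transcendental Qb (coeffMap (algebraMap K₀ Qb) (x : LaurentSeries K₀))) (i : ℕ) :
    Module.Finite K₀ (LL K₀ x i) := by
  have := isCurve_bar N
  set y : modularFunctionFieldBar N :=
    baseChangeMap (modularFunctionFieldFull N) (algebraMap K₀ Qb) x with hy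
  have hytr : Transcendental Qb y := Fermat.Agent.GAL.KLInputs.transcendental_of_coe _ hx
  have : FiniteDimensional Qb⟮y⟯ (modularFunctionFieldBar N) := IsFF1.finite y hytr
  have : CharZero Qb⟮y⟯ := charZero_of_injective_algebraMap (algebraMap Qb Qb⟮y⟯).injective
  have : PerfectField Qb⟮y⟯ := PerfectField.ofCharZero
  have : Algebra.IsAlgebraic Qb⟮y⟯ (modularFunctionFieldBar N) := Algebra.IsAlgebraic.of_finite _ _
  have : Algebra.IsSeparable Qb⟮y⟯ (modularFunctionFieldBar N) :=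
    Algebra.IsAlgebraic.isSeparable_of_perfectField
  have hfin : Module.Finite Qb (LL Qb y i) := by
    rw [← L_eq_LL hytr i]
    infer_instance
  exact finite_LL_of_baseChange (baseChangeMap (modularFunctionFieldFull N) (algebraMap K₀ Qb))
    (fun a => baseChangeMap_algebraMap (algebraMap K₀ Qb) a)
    (isLinDisj_bar K₀ (modularFunctionFieldFull N)) x i

open Polynomial Fermat.Agent.GAL.KLInputs in
/-- the frames for a base coordinate `xZ` with good horizontal ramification -/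
theorem frames_of_baseCoord (hN : ¬ ℓ ∣ N) (hA : A.LiesOverPrime ℓ) (K₀ : IntermediateField ℚ Qb)
    [FiniteDimensional ℚ K₀]
    (h₀ : IsGood (restrict A K₀) (laurentBaseChange K₀ (modularFunctionFieldFull N)))
    {xZ : LaurentSeries ℤ} (hxZ : IsBaseCoord N xZ) (g₀ g₁ : ℤ[X])
    (hg₀ : Squarefree (g₀.map (Int.castRingHom (kk (restrict A K₀)))))
    (hg₁ : Squarefree (g₁.map (Int.castRingHom (kk (restrict A K₀)))))
    (hU₀ : UnramOutsideVS K₀
      (⟨ser K₀ xZ, ser_mem hxZ K₀⟩ : laurentBaseChange K₀ (modularFunctionFieldFull N))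
      (g₀.map (Int.castRingHom K₀)))
    (hU₁ : UnramOutsideVS K₀
      (⟨ser K₀ xZ, ser_mem hxZ K₀⟩ : laurentBaseChange K₀ (modularFunctionFieldFull N))⁻¹
      (g₁.map (Int.castRingHom K₀))) :
    ∃ x₀ : gaussRing _ _ h₀,
      (((x₀ : gaussRing _ _ h₀) : laurentBaseChange K₀ (modularFunctionFieldFull N)) :
          LaurentSeries K₀) = ser _ xZ ∧
    ∃ i₀ : ℕ, ∀ i, i₀ ≤ i → ∃ (m : ℕ) (v : Fin m → gaussRing _ _ h₀),
      span K₀ (Set.range fun j => ((v j : gaussRing _ _ h₀) :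
        laurentBaseChange K₀ (modularFunctionFieldFull N))) =
          LL K₀ ((x₀ : gaussRing _ _ h₀) : laurentBaseChange K₀ (modularFunctionFieldFull N)) i ∧
      LinearIndependent (kk (restrict A K₀)) (fun j => redE h₀ (v j)) ∧
      span (kk (restrict A K₀)) (Set.range fun j => redE h₀ (v j)) =
        LL (kk (restrict A K₀)) (redE h₀ x₀) i := by
  have hp : ℓ.Prime := Fact.out
  obtain ⟨D, -⟩ := exists_UData_card N ℓ hN
  have : IsDiscreteValuationRing (restrict A K₀) :=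
    isDiscreteValuationRing_restrict K₀ hp.ne_zero hA
  have hℓ : (restrict A K₀).LiesOverPrime ℓ := restrict_liesOverPrime K₀ hA
  have hj := Fermat.Agent.GAL.KLInputs.jqModC_mem K₀ N
  have hF := le_bigField (restrict A K₀) D hℓ
  have hq := Fermat.Agent.S18.Vert.isQuot hj hF
  let x₀ : gaussRing _ _ h₀ := ⟨⟨ser K₀ xZ, ser_mem hxZ K₀⟩, ⟨_, red_ser (restrict A K₀) xZ⟩⟩
  refine ⟨x₀, rfl, ?_⟩
  have hred : redHom h₀ x₀ = ser (kk (restrict A K₀)) xZ :=
    redHom_eq h₀ (red_ser (restrict A K₀) xZ)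
  refine frames_of_gauss (restrict A K₀) D hℓ _ hj hF hq h₀ x₀ ?_ ?_ ?_ g₀ g₁ hg₀ hg₁ hU₀ hU₁ ?_
  · rw [hred]
    exact hxZ.tr _
  · exact transcendental_of_coe _ (hxZ.tr K₀)
  · apply curve_mem_of_mem_map
    rw [curve_map_adjoin_simple]
    exact hxZ.j_mem K₀
  · intro i
    refine frames_finite_LL N K₀ _ ?_ i
    have e : coeffMap (algebraMap K₀ Qb) (ser K₀ xZ) = ser Qb xZ := by
      rw [ser, ser, coeffMap_coeffMap]
      exact coeffMap_congr (RingHom.ext_int _ _) _
    show Transcendental Qb (coeffMap (algebraMap K₀ Qb) (ser K₀ xZ))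
    rw [e]
    exact hxZ.tr Qb

open Polynomial Fermat.Agent.GAL.KLInputs Fermat.Agent.Lib.Hauptmodul in
/-- **the frames over the discrete valuation ring `A₀`**: instantiate `exists_frames_LL` with
`O = A₀`, `K = K₀`, `F = F_{K₀}`, `E = K₀(x)`, `𝒟 = gaussRing = Vert.gaussVal`, `x = j, h₂, h₃`. -/
theorem exists_baseCoord_frames (hN : ¬ ℓ ∣ N) (h3 : ℓ = 3 → 2 ∣ N) (h2 : ℓ = 2 → 3 ∣ N)
    (hA : A.LiesOverPrime ℓ)
    (h₀ : IsGood (restrict A (⊥ : IntermediateField ℚ Qb))
      (laurentBaseChange (⊥ : IntermediateField ℚ Qb) (modularFunctionFieldFull N))) :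
    ∃ xZ : LaurentSeries ℤ, IsBaseCoord N xZ ∧
    ∃ x₀ : gaussRing _ _ h₀,
      (((x₀ : gaussRing _ _ h₀) :
        laurentBaseChange (⊥ : IntermediateField ℚ Qb) (modularFunctionFieldFull N)) :
          LaurentSeries (⊥ : IntermediateField ℚ Qb)) = ser _ xZ ∧
    ∃ i₀ : ℕ, ∀ i, i₀ ≤ i → ∃ (m : ℕ) (v : Fin m → gaussRing _ _ h₀),
      span (⊥ : IntermediateField ℚ Qb) (Set.range fun j => ((v j : gaussRing _ _ h₀) :
        laurentBaseChange (⊥ : IntermediateField ℚ Qb) (modularFunctionFieldFull N))) =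
          LL (⊥ : IntermediateField ℚ Qb) ((x₀ : gaussRing _ _ h₀) :
            laurentBaseChange (⊥ : IntermediateField ℚ Qb) (modularFunctionFieldFull N)) i ∧
      LinearIndependent (kk (restrict A (⊥ : IntermediateField ℚ Qb))) (fun j => redE h₀ (v j)) ∧
      span (kk (restrict A (⊥ : IntermediateField ℚ Qb))) (Set.range fun j => redE h₀ (v j)) =
        LL (kk (restrict A (⊥ : IntermediateField ℚ Qb))) (redE h₀ x₀) i := by
  have hp : ℓ.Prime := Fact.out
  have hℓ : (restrict A (⊥ : IntermediateField ℚ Qb)).LiesOverPrime ℓ :=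
    restrict_liesOverPrime _ hA
  by_cases e3 : ℓ = 3
  · have h64 : ¬ (ℓ : ℤ) ∣ 64 := by
      rw [e3]; decide
    refine ⟨_, isBaseCoord_h2 N (h3 e3), frames_of_baseCoord N A hN hA _ h₀
      (isBaseCoord_h2 N (h3 e3)) (gA 64) (gB 64)
      (squarefree_gA _ hp hℓ _ h64) (squarefree_gB _ hp hℓ _ h64) ?_ ?_⟩
    · convert unram_h2K N (⊥ : IntermediateField ℚ Qb) (h3 e3) using 1
      exact Subtype.ext (coeffMap_toL _ _)
    · convert unram_h2K_inv N (⊥ : IntermediateField ℚ Qb) (h3 e3) using 2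
      exact Subtype.ext (coeffMap_toL _ _)
  by_cases e2 : ℓ = 2
  · have h27 : ¬ (ℓ : ℤ) ∣ 27 := by
      rw [e2]; decide
    refine ⟨_, isBaseCoord_h3 N (h2 e2), frames_of_baseCoord N A hN hA _ h₀
      (isBaseCoord_h3 N (h2 e2)) (gA 27) (gB 27)
      (squarefree_gA _ hp hℓ _ h27) (squarefree_gB _ hp hℓ _ h27) ?_ ?_⟩
    · convert unram_h3K N (⊥ : IntermediateField ℚ Qb) (h2 e2) using 1
      exact Subtype.ext (coeffMap_toL _ _)
    · convert unram_h3K_inv N (⊥ : IntermediateField ℚ Qb) (h2 e2) using 2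
      exact Subtype.ext (coeffMap_toL _ _)
  · have h1728 : ¬ (ℓ : ℤ) ∣ (-1728) := by
      rw [Int.dvd_neg]
      intro h
      have h' : ℓ ∣ 2 ^ 6 * 3 ^ 3 := by exact_mod_cast h
      rcases (Nat.Prime.dvd_mul hp).1 h' with h' | h'
      · exact e2 ((Nat.prime_dvd_prime_iff_eq hp Nat.prime_two).1 (hp.dvd_of_dvd_pow h'))
      · exact e3 ((Nat.prime_dvd_prime_iff_eq hp Nat.prime_three).1 (hp.dvd_of_dvd_pow h'))
    refine ⟨_, isBaseCoord_j N, frames_of_baseCoord N A hN hA _ h₀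
      (isBaseCoord_j N) (gB (-1728)) (gA (-1728))
      (squarefree_gB _ hp hℓ _ h1728) (squarefree_gA _ hp hℓ _ h1728) ?_ ?_⟩
    · convert unram_jK N (⊥ : IntermediateField ℚ Qb) using 1
      exact Subtype.ext (coeffMap_jqModC _)
    · convert unram_jK_inv N (⊥ : IntermediateField ℚ Qb) using 2
      exact Subtype.ext (coeffMap_jqModC _)

end M6

end Fermat.Agent.S19.KM.Mod
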