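import Fermat.Agent.S19.KM.Geom.Mod.Levels
import Fermat.Agent.S19.KM.GR.Defs
import Fermat.Agent.S19.KM.Red.Basic
import Fermat.Agent.Lib.InertiaField.Defs
import Fermat.Prelude.Def_ModularCurve_ArithmeticGalois

/-!
# S19 / KM route, block [G], section M5: the Galois action on `F_{ℚ̄} ⊆ ℚ̄((q))`

Series with rational coefficients are fixed; the decomposition (inertia) group of `A` maps to the
decomposition (inertia) group of the Gauss valuation ring.   Owner: helper205.
-/

set_option autoImplicit false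

noncomputable section

namespace Fermat.Agent.S19.KM.Mod

open ModularCurve AlgebraicCurve Fermat.Agent.S28.Export Fermat.Agent.S18.Descent

local notation "Qb" => AlgebraicClosure ℚ
local notation "GQ" => (AlgebraicClosure ℚ ≃ₐ[ℚ] AlgebraicClosure ℚ)
local notation "kk" A => IsLocalRing.ResidueField (↥A)

section M5

/-! ### The automorphism of `A` and of its residue field induced by `σ` in the decomposition group -/

section aux

variable {A : ValuationSubring Qb} {σ : GQ}

/-- the restriction of `σ` to `A` -/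
def Galois.resA (hσ : σ ∈ A.decompositionSubgroup ℚ) : A →+* A where
  toFun a := ⟨σ (a : Qb), Lib.InertiaField.apply_mem_of_mem_decomposition A hσ a.2⟩
  map_one' := Subtype.ext (map_one σ)
  map_mul' a b := Subtype.ext (map_mul σ (a : Qb) (b : Qb))
  map_zero' := Subtype.ext (map_zero σ)
  map_add' a b := Subtype.ext (map_add σ (a : Qb) (b : Qb))

@[simp] theorem Galois.coe_resA (hσ : σ ∈ A.decompositionSubgroup ℚ) (a : A) :
    ((Galois.resA hσ a : A) : Qb) = σ (a : Qb) := rfl

theorem Galois.resA_inv_resA (hσ : σ ∈ A.decompositionSubgroup ℚ) (a : A) :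
    Galois.resA (inv_mem hσ) (Galois.resA hσ a) = a :=
  Subtype.ext (σ.symm_apply_apply (a : Qb))

instance Galois.isLocalHom_resA (hσ : σ ∈ A.decompositionSubgroup ℚ) :
    IsLocalHom (Galois.resA hσ) where
  map_nonunit a ha := by
    have := ha.map (Galois.resA (inv_mem hσ))
    rwa [Galois.resA_inv_resA] at this

/-- the endomorphism of the residue field induced by `σ` -/
def Galois.resK (hσ : σ ∈ A.decompositionSubgroup ℚ) : (kk A) →+* (kk A) :=
  IsLocalRing.ResidueField.map (Galois.resA hσ)

theorem Galois.resK_comp_residue (hσ : σ ∈ A.decompositionSubgroup ℚ) :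
    (Galois.resK hσ).comp (IsLocalRing.residue A) =
      (IsLocalRing.residue A).comp (Galois.resA hσ) := rfl

theorem Galois.subtype_comp_resA (hσ : σ ∈ A.decompositionSubgroup ℚ) :
    A.subtype.comp (Galois.resA hσ) = (σ : Qb →+* Qb).comp A.subtype := rfl

theorem Galois.iota_resA (hσ : σ ∈ A.decompositionSubgroup ℚ) (G : LaurentSeries A) :
    iota A (coeffMap (Galois.resA hσ) G) = coeffMap (σ : Qb →+* Qb) (iota A G) := by
  rw [iota, coeffMap_coeffMap, coeffMap_coeffMap, Galois.subtype_comp_resA]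

theorem Galois.rho_resA (hσ : σ ∈ A.decompositionSubgroup ℚ) (G : LaurentSeries A) :
    rho A (coeffMap (Galois.resA hσ) G) = coeffMap (Galois.resK hσ) (rho A G) := by
  rw [rho, coeffMap_coeffMap, coeffMap_coeffMap, Galois.resK_comp_residue]

/-- the reduction is equivariant under the decomposition group -/
theorem Galois.red_coeffMap_of_mem_decomposition (hσ : σ ∈ A.decompositionSubgroup ℚ)
    {f : LaurentSeries Qb} {g : LaurentSeries (kk A)} (h : Red A f g) :
    Red A (coeffMap (σ : Qb →+* Qb) f) (coeffMap (Galois.resK hσ) g) := by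
  obtain ⟨G₁, G₂, h2, hf, hg⟩ := h
  refine ⟨coeffMap (Galois.resA hσ) G₁, coeffMap (Galois.resA hσ) G₂, ?_, ?_, ?_⟩
  · rw [Galois.rho_resA]
    intro h0
    apply h2
    apply coeffMap_injective (Galois.resK hσ) (Galois.resK hσ).injective
    rw [h0, map_zero]
  · rw [Galois.iota_resA, Galois.iota_resA, ← map_mul, hf]
  · rw [Galois.rho_resA, Galois.rho_resA, ← map_mul, hg]

theorem Galois.residue_eq_of_sub_mem_nonunits {a b : A} (h : (a : Qb) - (b : Qb) ∈ A.nonunits) :
    IsLocalRing.residue A a = IsLocalRing.residue A b := by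
  rw [← sub_eq_zero, ← map_sub, IsLocalRing.residue_eq_zero_iff]
  obtain ⟨hm, hmem⟩ := ValuationSubring.mem_nonunits_iff_exists_mem_maximalIdeal.1 h
  exact hmem

theorem Galois.sub_mem_nonunits_of_residue_eq {a b : A}
    (h : IsLocalRing.residue A a = IsLocalRing.residue A b) :
    (a : Qb) - (b : Qb) ∈ A.nonunits := by
  rw [← sub_eq_zero, ← map_sub, IsLocalRing.residue_eq_zero_iff] at h
  exact ValuationSubring.mem_nonunits_iff_exists_mem_maximalIdeal.2 ⟨(a - b).2, h⟩

theorem Galois.resK_eq_id (hσ : σ ∈ A.inertiaSubgroupIn ℚ) :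
    Galois.resK (Lib.InertiaField.inertia_le_decomposition A hσ) = RingHom.id (kk A) := by
  ext c
  obtain ⟨a, rfl⟩ := IsLocalRing.residue_surjective c
  show IsLocalRing.residue A (Galois.resA _ a) = IsLocalRing.residue A a
  exact Galois.residue_eq_of_sub_mem_nonunits (Lib.InertiaField.apply_sub_mem_nonunits A hσ a.2)

/-- the reduction is invariant under the inertia group -/
theorem Galois.red_coeffMap_of_mem_inertia (hσ : σ ∈ A.inertiaSubgroupIn ℚ)
    {f : LaurentSeries Qb} {g : LaurentSeries (kk A)} (h : Red A f g) :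
    Red A (coeffMap (σ : Qb →+* Qb) f) g := by
  have h1 := Galois.red_coeffMap_of_mem_decomposition
    (Lib.InertiaField.inertia_le_decomposition A hσ) h
  rwa [coeffMap_congr (Galois.resK_eq_id hσ), coeffMap_id] at h1

end aux

variable (A : ValuationSubring Qb)
variable (F₀ : IntermediateField ℚ (LaurentSeries ℚ))

theorem arith_smul_baseChangeMap (σ : GQ)
    (f : laurentBaseChange (⊥ : IntermediateField ℚ Qb) F₀) :
    arithmeticGalois F₀ σ • baseChangeMap F₀ (algebraMap (⊥ : IntermediateField ℚ Qb) Qb) f =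
      baseChangeMap F₀ (algebraMap (⊥ : IntermediateField ℚ Qb) Qb) f := by
  apply Subtype.ext
  rw [coe_arithmeticGalois_smul, coe_baseChangeMap, coeffMap_coeffMap]
  refine coeffMap_congr (RingHom.ext fun x => ?_) _
  obtain ⟨r, hr⟩ := IntermediateField.mem_bot.1 x.2
  show σ (x : Qb) = (x : Qb)
  rw [← hr]
  exact σ.commutes r

variable {A F₀} (h : IsGood A (laurentBaseChange Qb F₀))

theorem isDec_arith {σ : GQ} (hσ : σ ∈ A.decompositionSubgroup ℚ) :
    (redData h).IsDec (arithmeticGalois F₀ σ) := by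
  refine ⟨fun a => ⟨fun ha => ?_, fun ha => ?_⟩, fun f => ⟨?_, ?_⟩⟩
  · have h1 := Lib.InertiaField.apply_mem_of_mem_decomposition A (inv_mem hσ) (a := σ a) ha
    have h2 : σ⁻¹ (σ a) = a := σ.symm_apply_apply a
    rwa [h2] at h1
  · exact Lib.InertiaField.apply_mem_of_mem_decomposition A hσ ha
  · rintro ⟨g, hg⟩
    rw [coe_arithmeticGalois_smul] at hg
    have h1 := Galois.red_coeffMap_of_mem_decomposition (inv_mem hσ) hg
    rw [coeffMap_coeffMap, coeffMap_congr (g := RingHom.id Qb)
      (RingHom.ext fun a => σ.symm_apply_apply a), coeffMap_id] at h1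
    exact ⟨_, h1⟩
  · rintro ⟨g, hg⟩
    exact ⟨_, Galois.red_coeffMap_of_mem_decomposition hσ hg⟩

theorem isIne_arith {σ : GQ} (hσ : σ ∈ A.inertiaSubgroupIn ℚ) :
    (redData h).IsIne (arithmeticGalois F₀ σ) := by
  intro f fb hf
  rw [redData_red_iff] at hf ⊢
  rw [coe_arithmeticGalois_smul]
  exact Galois.red_coeffMap_of_mem_inertia hσ hf

theorem mem_inertia_of_isIne {σ : GQ} (hσ : (redData h).IsIne (arithmeticGalois F₀ σ)) :
    σ ∈ A.inertiaSubgroupIn ℚ := by
  rw [Lib.InertiaField.mem_inertia_iff]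
  intro x hx
  have hxA : x ∈ A := Lib.Frobenius.mem_valuationSubring_of_isIntegral A hx
  have h1 := hσ _ _ (RedData.Red.algebraMap (R := redData h) ⟨x, hxA⟩)
  rw [SemilinearAut.smul_algebraMap] at h1
  have h2 : σ x ∈ A := ((redData h).algebraMap_mem (σ x)).1 h1.choose
  have h3 := RedData.Red.algebraMap (R := redData h) ⟨σ x, h2⟩
  have h4 := (algebraMap (kk A) (resField A (laurentBaseChange Qb F₀))).injective
    (RedData.Red.unique h3 h1)
  exact Galois.sub_mem_nonunits_of_residue_eq (a := ⟨σ x, h2⟩) (b := ⟨x, hxA⟩) h4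

end M5

end Fermat.Agent.S19.KM.Mod
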