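import Fermat.Agent.S19.KM.Geom.Mod.Defs
import Fermat.Agent.S18.Descent.DVR
import Fermat.Agent.S18.Descent.Union

/-!
# S19 / KM route, block [G]: the two levels `K₀ ⊆ ℚ̄` (definitions)

`K₀` a subfield of `ℚ̄`, `A₀ = restrict A K₀`.  The residue field `k₀` of `A₀` embeds into the residue
field `k` of `A`; coefficientwise this maps the reduction of a series over `K₀` to the reduction of
the same series over `ℚ̄`.  Owner: helper19.
-/

set_option autoImplicit false

noncomputable section

namespace Fermat.Agent.S19.KM.Mod

open ModularCurve Fermat.Agent.S28.Export Fermat.Agent.S18.Descent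

local notation "Qb" => AlgebraicClosure ℚ

variable (A : ValuationSubring Qb) (K₀ : IntermediateField ℚ Qb)

/-- `k₀ → k` as an algebra structure -/
instance algResidue : Algebra (IsLocalRing.ResidueField (restrict A K₀))
    (IsLocalRing.ResidueField A) := (residueMap A K₀).toAlgebra

theorem algebraMap_residue_eq :
    algebraMap (IsLocalRing.ResidueField (restrict A K₀)) (IsLocalRing.ResidueField A) =
      residueMap A K₀ := rfl

variable {A K₀}

theorem iota_restrictHom (G : LaurentSeries (restrict A K₀)) :
    iota A (coeffMap (restrictHom A K₀) G) =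
      coeffMap (algebraMap K₀ Qb) (iota (restrict A K₀) G) := by
  rw [iota, iota, coeffMap_coeffMap, coeffMap_coeffMap, subtype_comp_restrictHom]

theorem rho_restrictHom (G : LaurentSeries (restrict A K₀)) :
    rho A (coeffMap (restrictHom A K₀) G) =
      coeffMap (residueMap A K₀) (rho (restrict A K₀) G) := by
  rw [rho, rho, coeffMap_coeffMap, coeffMap_coeffMap, residueMap_comp_residue]

/-- compatibility of the reductions at the two levels -/
theorem red_coeffMap {f : LaurentSeries K₀}
    {g : LaurentSeries (IsLocalRing.ResidueField (restrict A K₀))} (h : Red (restrict A K₀) f g) :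
    Red A (coeffMap (algebraMap K₀ Qb) f) (coeffMap (residueMap A K₀) g) := by
  obtain ⟨G₁, G₂, h2, hf, hg⟩ := h
  refine ⟨coeffMap (restrictHom A K₀) G₁, coeffMap (restrictHom A K₀) G₂, ?_, ?_, ?_⟩
  · rw [rho_restrictHom]
    intro h0
    apply h2
    apply coeffMap_injective (residueMap A K₀) (residueMap_injective A K₀)
    rw [h0, map_zero]
  · rw [iota_restrictHom, iota_restrictHom, ← map_mul, hf]
  · rw [rho_restrictHom, rho_restrictHom, ← map_mul, hg]

variable (A K₀) (F₀ : IntermediateField ℚ (LaurentSeries ℚ))

/-- `Ψ : resField A₀ F_{K₀} → resField A F_{ℚ̄}` -/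
def resMap : resField (restrict A K₀) (laurentBaseChange K₀ F₀) →+*
    resField A (laurentBaseChange Qb F₀) where
  toFun g := ⟨coeffMap (residueMap A K₀) (g : LaurentSeries _), by
    obtain ⟨f, hf, hr⟩ := g.2
    exact ⟨_, coeffMap_mem_laurentBaseChange' (algebraMap K₀ Qb) hf, red_coeffMap hr⟩⟩
  map_one' := by ext1; simp
  map_mul' x y := by ext1; simp
  map_zero' := by ext1; simp
  map_add' x y := by ext1; simp

@[simp] theorem coe_resMap (g : resField (restrict A K₀) (laurentBaseChange K₀ F₀)) :
    ((resMap A K₀ F₀ g : resField A (laurentBaseChange Qb F₀)) : LaurentSeries _) =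
      coeffMap (residueMap A K₀) (g : LaurentSeries _) := rfl

end Fermat.Agent.S19.KM.Mod
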