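import Fermat.Agent.S19.KM.Geom.Mod.Levels
import Fermat.Agent.Lib.InertiaField.Residue

/-!
# S19 / KM route, block [G], node M3: the residue fields (owner helper80)

* `isSeparable_residue`: every nonzero element of the residue field `k` of `A` is a root of
  `X ^ n - 1` with `ℓ ∤ n`.
* `exists_teich_mod`: every element of `k` lifts to an element of `A` fixed by the inertia group.
-/

set_option autoImplicit false

noncomputable section

namespace Fermat.Agent.S19.KM.Mod

open ModularCurve Fermat.Agent.S28.Export Fermat.Agent.S18.Descent IntermediateField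

local notation "Qb" => AlgebraicClosure ℚ
local notation "GQ" => (AlgebraicClosure ℚ ≃ₐ[ℚ] AlgebraicClosure ℚ)
local notation "kk" A => IsLocalRing.ResidueField (↥A)

variable {ℓ : ℕ} [Fact ℓ.Prime] (A : ValuationSubring Qb)

theorem Residue.residue_eq_zero_iff {x : Qb} (hx : x ∈ A) :
    IsLocalRing.residue A ⟨x, hx⟩ = 0 ↔ x ∈ A.nonunits := by
  rw [IsLocalRing.residue_eq_zero_iff, ValuationSubring.mem_nonunits_iff_exists_mem_maximalIdeal]
  exact ⟨fun h => ⟨hx, h⟩, fun ⟨_, h⟩ => h⟩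

/-- every nonzero element of the residue field is a root of unity of order prime to `ℓ` -/
theorem Residue.exists_pow_eq_one (hA : A.LiesOverPrime ℓ) (x : kk A) (hx : x ≠ 0) :
    ∃ n : ℕ, ¬ ℓ ∣ n ∧ x ^ n = 1 := by
  obtain ⟨⟨a, ha⟩, rfl⟩ := IsLocalRing.residue_surjective x
  have ha' : a ∉ A.nonunits := fun h => hx ((Residue.residue_eq_zero_iff A ha).2 h)
  obtain ⟨n, hn, h⟩ := Lib.InertiaField.exists_pow_sub_one_mem A ℓ Fact.out hA ha ha'
  refine ⟨n, hn, ?_⟩
  have hmem : a ^ n - 1 ∈ A := A.sub_mem (pow_mem ha _) A.one_mem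
  have h0 := (Residue.residue_eq_zero_iff A hmem).2 h
  have : (⟨a ^ n - 1, hmem⟩ : A) = (⟨a, ha⟩ : A) ^ n - 1 := rfl
  rw [this, map_sub, map_pow, map_one, sub_eq_zero] at h0
  exact h0

theorem isSeparable_residue (hA : A.LiesOverPrime ℓ) :
    Algebra.IsSeparable (kk (restrict A (⊥ : IntermediateField ℚ Qb))) (kk A) := by
  have hchar : CharP (kk A) ℓ := Lib.InertiaField.charP_residueField A ℓ Fact.out hA
  refine ⟨fun x => ?_⟩
  by_cases hx : x = 0
  · rw [hx, ← map_zero (algebraMap (kk (restrict A (⊥ : IntermediateField ℚ Qb))) (kk A))]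
    exact isSeparable_algebraMap _
  obtain ⟨n, hn, hxn⟩ := Residue.exists_pow_eq_one A hA x hx
  have hn0 : ((n : ℕ) : kk (restrict A (⊥ : IntermediateField ℚ Qb))) ≠ 0 := by
    intro h
    have h1 := congrArg (algebraMap (kk (restrict A (⊥ : IntermediateField ℚ Qb))) (kk A)) h
    rw [map_natCast, map_zero, CharP.cast_eq_zero_iff (kk A) ℓ] at h1
    exact hn h1
  have hsep : (Polynomial.X ^ n - Polynomial.C
      (1 : kk (restrict A (⊥ : IntermediateField ℚ Qb)))).Separable :=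
    Polynomial.separable_X_pow_sub_C 1 hn0 one_ne_zero
  refine hsep.of_dvd (minpoly.dvd _ _ ?_)
  simp [hxn]

theorem exists_teich_mod (hA : A.LiesOverPrime ℓ) (c : kk A) :
    ∃ a : A, IsLocalRing.residue A a = c ∧ ∀ σ ∈ A.inertiaSubgroupIn ℚ, σ (a : Qb) = a := by
  obtain ⟨⟨a, ha⟩, rfl⟩ := IsLocalRing.residue_surjective c
  obtain ⟨b, hbK, hbA, hab⟩ := Lib.InertiaField.exists_mem_K0_sub_mem A ℓ Fact.out hA ha
  refine ⟨⟨b, hbA⟩, ?_, (Lib.InertiaField.mem_K0_iff A b).1 hbK⟩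
  have hmem : a - b ∈ A := A.sub_mem ha hbA
  have h0 := (Residue.residue_eq_zero_iff A hmem).2 hab
  have : (⟨a - b, hmem⟩ : A) = (⟨a, ha⟩ : A) - ⟨b, hbA⟩ := rfl
  rw [this, map_sub, sub_eq_zero] at h0
  exact h0.symm

end Fermat.Agent.S19.KM.Mod
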